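import Fermat.Agent.S44.VC.Field
import Fermat.Prelude.Def_FLTPrelim_GaloisRep

/-!
# S44/VC/Main : a change of variables over the base induces a Galois-equivariant group
isomorphism of the points over an extension field, of the torsion, and transfers irreducibility.
-/

set_option autoImplicit false
set_option linter.unusedSectionVars false

namespace Fermat.Agent.S44.VC

open WeierstrassCurve WeierstrassCurve.Affine WeierstrassCurve.Affine.Point

section cast

variable {K : Type*} [Field K] [DecidableEq K]

/-- transport of points along an equality of curves -/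
noncomputable def castEquiv {W W' : WeierstrassCurve K} (h : W = W') :
    W.toAffine.Point ≃+ W'.toAffine.Point := by
  subst h; exact AddEquiv.refl _

lemma castEquiv_zero {W W' : WeierstrassCurve K} (h : W = W') :
    castEquiv h (.zero) = .zero := by
  subst h; rfl

lemma castEquiv_some {W W' : WeierstrassCurve K} (h : W = W') {x y : K}
    (hxy : W.toAffine.Nonsingular x y) :
    castEquiv h (.some x y hxy) = .some x y (h ▸ hxy) := by
  subst h; rfl

end cast

section main

variable {R : Type*} {S : Type*} {K : Type*} [CommRing R] [CommRing S] [Field K]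
  [DecidableEq K] [Algebra R S] [Algebra R K] [Algebra S K] [IsScalarTower R S K]

/-- the isomorphism on `K`-points induced by a change of variables over `R` -/
noncomputable def equiv (E : WeierstrassCurve R) (C : VariableChange R) :
    (E⁄K).Point ≃+ ((C • E)⁄K).Point :=
  (ptEquiv (E.map (algebraMap R K)) (C.map (algebraMap R K))).trans
    (castEquiv (map_variableChange E C (algebraMap R K)))

lemma equiv_zero (E : WeierstrassCurve R) (C : VariableChange R) :
    equiv (K := K) E C .zero = .zero := by
  exact castEquiv_zero _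

lemma equiv_some (E : WeierstrassCurve R) (C : VariableChange R) {x y : K}
    (h : (E⁄K).Nonsingular x y) :
    ∃ h', equiv (K := K) E C (.some x y h) =
      .some (fx (C.map (algebraMap R K)) x) (fy (C.map (algebraMap R K)) x y) h' := by
  refine ⟨_, castEquiv_some _ _⟩

lemma fx_comm (C : VariableChange R) (σ : K ≃ₐ[S] K) (x : K) :
    σ (fx (C.map (algebraMap R K)) x) = fx (C.map (algebraMap R K)) (σ x) := by
  have h : ∀ a : R, σ (algebraMap R K a) = algebraMap R K a := fun a => by
    rw [IsScalarTower.algebraMap_apply R S K, AlgEquiv.commutes]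
  simp only [fx, VariableChange.map, map_mul, map_pow, map_sub, h, Units.coe_map_inv,
    MonoidHom.coe_coe]

lemma fy_comm (C : VariableChange R) (σ : K ≃ₐ[S] K) (x y : K) :
    σ (fy (C.map (algebraMap R K)) x y) = fy (C.map (algebraMap R K)) (σ x) (σ y) := by
  have h : ∀ a : R, σ (algebraMap R K a) = algebraMap R K a := fun a => by
    rw [IsScalarTower.algebraMap_apply R S K, AlgEquiv.commutes]
  simp only [fy, VariableChange.map, map_mul, map_pow, map_sub, h, Units.coe_map_inv,
    MonoidHom.coe_coe]

theorem equiv_smul (E : WeierstrassCurve R) (C : VariableChange R) (σ : K ≃ₐ[S] K)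
    (P : (E⁄K).Point) : equiv (K := K) E C (σ • P) = σ • equiv (K := K) E C P := by
  rcases P with _ | ⟨x, y, h⟩
  · change equiv (K := K) E C .zero = σ • equiv (K := K) E C .zero
    rw [equiv_zero]; rfl
  · obtain ⟨h', e'⟩ := equiv_some E C h
    rw [e', algEquiv_smul_def, algEquiv_smul_def, Point.map_some, Point.map_some]
    obtain ⟨h'', e''⟩ := equiv_some E C
      ((Affine.baseChange_nonsingular _ σ.toAlgHom.injective _ _).2 h)
    rw [e'']
    congr 1
    · exact (fx_comm C σ x).symm
    · exact (fy_comm C σ x y).symm

/-- EXPORT: a change of variables over `ℚ` gives a Galois-equivariant group isomorphism of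
the `ℚ̄`-points. -/
theorem exists_equiv (E : WeierstrassCurve ℚ) (C : VariableChange ℚ) :
    ∃ e : (E⁄(AlgebraicClosure ℚ)).Point ≃+ ((C • E)⁄(AlgebraicClosure ℚ)).Point,
      ∀ (σ : AlgebraicClosure ℚ ≃ₐ[ℚ] AlgebraicClosure ℚ) (P : (E⁄(AlgebraicClosure ℚ)).Point),
        e (σ • P) = σ • e P :=
  ⟨equiv E C, fun σ P => equiv_smul E C σ P⟩

/-- the induced isomorphism on `n`-torsion -/
noncomputable def torsEquiv (E : WeierstrassCurve R) (C : VariableChange R) (n : ℕ) :
    Submodule.torsionBy ℤ (E⁄K).Point n ≃+ Submodule.torsionBy ℤ ((C • E)⁄K).Point n where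
  toFun P := ⟨equiv (K := K) E C P.1, by
    have := P.2
    rw [Submodule.mem_torsionBy_iff] at this ⊢
    rw [← map_zsmul, this, _root_.map_zero]⟩
  invFun P := ⟨(equiv (K := K) E C).symm P.1, by
    have := P.2
    rw [Submodule.mem_torsionBy_iff] at this ⊢
    rw [← map_zsmul, this, _root_.map_zero]⟩
  left_inv P := Subtype.ext (by simp)
  right_inv P := Subtype.ext (by simp)
  map_add' P Q := Subtype.ext (by simp)

lemma torsEquiv_coe (E : WeierstrassCurve R) (C : VariableChange R) (n : ℕ)
    (P : Submodule.torsionBy ℤ (E⁄K).Point n) :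
    ((torsEquiv (K := K) E C n P : Submodule.torsionBy ℤ ((C • E)⁄K).Point n) :
      ((C • E)⁄K).Point) = equiv (K := K) E C P.1 := rfl

theorem torsEquiv_smul (E : WeierstrassCurve R) (C : VariableChange R) (n : ℕ) (σ : K ≃ₐ[S] K)
    (P : Submodule.torsionBy ℤ (E⁄K).Point n) :
    torsEquiv (K := K) E C n (σ • P) = σ • torsEquiv (K := K) E C n P :=
  Subtype.ext (equiv_smul E C σ P.1)

/-- the induced `ZMod n`-linear isomorphism on `n`-torsion -/
noncomputable def torsLinEquiv (E : WeierstrassCurve R) (C : VariableChange R) (n : ℕ) :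
    Submodule.torsionBy ℤ (E⁄K).Point n ≃ₗ[ZMod n]
      Submodule.torsionBy ℤ ((C • E)⁄K).Point n :=
  { (torsEquiv (K := K) E C n) with
    map_smul' := fun a P => by
      obtain ⟨k, rfl⟩ := ZMod.intCast_surjective a
      simp only [AddEquiv.toFun_eq_coe, RingHom.id_apply]
      rw [Int.cast_smul_eq_zsmul, Int.cast_smul_eq_zsmul, map_zsmul] }

lemma torsLinEquiv_apply (E : WeierstrassCurve R) (C : VariableChange R) (n : ℕ)
    (P : Submodule.torsionBy ℤ (E⁄K).Point n) :
    torsLinEquiv (K := K) E C n P = torsEquiv (K := K) E C n P := rfl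

theorem irreducible_of_irreducible (E : WeierstrassCurve R) (C : VariableChange R) (n : ℕ)
    (h : GaloisRepIsIrreducible (K := K) S E.toAffine n) :
    GaloisRepIsIrreducible (K := K) S (C • E).toAffine n := by
  obtain ⟨h1, h2⟩ := h
  refine ⟨(torsEquiv (K := K) E C n).symm.toEquiv.nontrivial, fun N hN => ?_⟩
  have := h2 (N.comap (torsLinEquiv (K := K) E C n).toLinearMap) (fun σ x hx => by
    rw [Submodule.mem_comap] at hx ⊢
    have := hN σ _ hx
    rw [LinearEquiv.coe_coe, torsLinEquiv_apply] at this ⊢
    rw [torsEquiv_smul]; exact this)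
  have hsurj : Function.Surjective (torsLinEquiv (K := K) E C n).toLinearMap :=
    (torsLinEquiv (K := K) E C n).surjective
  rcases this with h | h
  · left
    rw [← Submodule.map_comap_eq_of_surjective hsurj N, h, Submodule.map_bot]
  · right
    rw [← Submodule.map_comap_eq_of_surjective hsurj N, h, Submodule.map_top,
      LinearMap.range_eq_top.2 hsurj]

theorem irreducible_iff (E : WeierstrassCurve R) (C : VariableChange R) (n : ℕ) :
    GaloisRepIsIrreducible (K := K) S (C • E).toAffine n ↔
      GaloisRepIsIrreducible (K := K) S E.toAffine n := by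
  refine ⟨fun h => ?_, irreducible_of_irreducible E C n⟩
  have := irreducible_of_irreducible (S := S) (K := K) (C • E) C⁻¹ n h
  rwa [inv_smul_smul] at this

end main

end Fermat.Agent.S44.VC
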