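import Mathlib.AlgebraicGeometry.EllipticCurve.Affine.Point

/-!
# S44/VC/Field : a change of variables induces a group isomorphism on points (field level)

`W : WeierstrassCurve K`, `C : VariableChange K`:
`(x, y) ↦ (u⁻²(x - r), u⁻³(y - t - s (x - r)))` is a group isomorphism `W.Point ≃+ (C • W).Point`.
-/

set_option autoImplicit false
set_option linter.unusedSectionVars false

namespace Fermat.Agent.S44.VC

open WeierstrassCurve WeierstrassCurve.Affine

variable {K : Type*} [Field K]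

/-- new `x`-coordinate -/
def fx (C : VariableChange K) (x : K) : K := (↑C.u⁻¹ : K) ^ 2 * (x - C.r)

/-- new `y`-coordinate -/
def fy (C : VariableChange K) (x y : K) : K := (↑C.u⁻¹ : K) ^ 3 * (y - C.t - C.s * (x - C.r))

lemma u_mul_inv (C : VariableChange K) : (C.u : K) * (↑C.u⁻¹ : K) = 1 := by simp

lemma inv_ne_zero' (C : VariableChange K) : (↑C.u⁻¹ : K) ≠ 0 := Units.ne_zero _

lemma fx_injective (C : VariableChange K) {x₁ x₂ : K} : fx C x₁ = fx C x₂ ↔ x₁ = x₂ := by
  unfold fx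
  constructor
  · intro h
    have := mul_left_cancel₀ (pow_ne_zero 2 (inv_ne_zero' C)) h
    linear_combination this
  · rintro rfl; rfl

lemma fy_injective (C : VariableChange K) (x : K) {y₁ y₂ : K} :
    fy C x y₁ = fy C x y₂ ↔ y₁ = y₂ := by
  unfold fy
  constructor
  · intro h
    have := mul_left_cancel₀ (pow_ne_zero 3 (inv_ne_zero' C)) h
    linear_combination this
  · rintro rfl; rfl

lemma equation_iff_fx (W : WeierstrassCurve K) (C : VariableChange K) (x y : K) :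
    (C • W).toAffine.Equation (fx C x) (fy C x y) ↔ W.toAffine.Equation x y := by
  rw [Affine.equation_iff', Affine.equation_iff']
  simp only [variableChange_a₁, variableChange_a₂, variableChange_a₃, variableChange_a₄,
    variableChange_a₆, fx, fy]
  set v : K := (↑C.u⁻¹ : K) with hv
  have hv0 : v ^ 6 ≠ 0 := pow_ne_zero 6 (inv_ne_zero' C)
  constructor
  · intro h
    apply mul_left_cancel₀ hv0
    linear_combination h
  · intro h
    linear_combination v ^ 6 * h

lemma nonsingular_iff_fx (W : WeierstrassCurve K) (C : VariableChange K) (x y : K) :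
    (C • W).toAffine.Nonsingular (fx C x) (fy C x y) ↔ W.toAffine.Nonsingular x y := by
  rw [Affine.nonsingular_iff', Affine.nonsingular_iff', equation_iff_fx]
  refine and_congr_right fun _ => ?_
  simp only [variableChange_a₁, variableChange_a₂, variableChange_a₃, variableChange_a₄, fx, fy]
  set v : K := (↑C.u⁻¹ : K) with hv
  have hv0 : v ≠ 0 := inv_ne_zero' C
  set A : K := W.a₁ * y - (3 * x ^ 2 + 2 * W.a₂ * x + W.a₄) with hA
  set B : K := 2 * y + W.a₁ * x + W.a₃ with hB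
  have e1 : v * (W.a₁ + 2 * C.s) * (v ^ 3 * (y - C.t - C.s * (x - C.r))) -
      (3 * (v ^ 2 * (x - C.r)) ^ 2 + 2 * (v ^ 2 * (W.a₂ - C.s * W.a₁ + 3 * C.r - C.s ^ 2)) *
        (v ^ 2 * (x - C.r)) + v ^ 4 * (W.a₄ - C.s * W.a₃ + 2 * C.r * W.a₂ -
          (C.t + C.r * C.s) * W.a₁ + 3 * C.r ^ 2 - 2 * C.s * C.t)) = v ^ 4 * (A + C.s * B) := by
    rw [hA, hB]; ring
  have e2 : 2 * (v ^ 3 * (y - C.t - C.s * (x - C.r))) + v * (W.a₁ + 2 * C.s) * (v ^ 2 * (x - C.r)) +
      v ^ 3 * (W.a₃ + C.r * W.a₁ + 2 * C.t) = v ^ 3 * B := by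
    rw [hB]; ring
  rw [e1, e2]
  have h4 : v ^ 4 ≠ 0 := pow_ne_zero 4 hv0
  have h3 : v ^ 3 ≠ 0 := pow_ne_zero 3 hv0
  simp only [ne_eq, mul_eq_zero, h4, h3, false_or]
  by_cases hB0 : B = 0
  · simp [hB0]
  · simp [hB0]

lemma negY_fx (W : WeierstrassCurve K) (C : VariableChange K) (x y : K) :
    (C • W).toAffine.negY (fx C x) (fy C x y) = fy C x (W.toAffine.negY x y) := by
  simp only [Affine.negY, variableChange_a₁, variableChange_a₃, fx, fy]
  ring

lemma addX_fx (W : WeierstrassCurve K) (C : VariableChange K) (x₁ x₂ ℓ : K) :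
    (C • W).toAffine.addX (fx C x₁) (fx C x₂) ((↑C.u⁻¹ : K) * (ℓ - C.s)) =
      fx C (W.toAffine.addX x₁ x₂ ℓ) := by
  simp only [Affine.addX, variableChange_a₁, variableChange_a₂, fx]
  ring

lemma negAddY_fx (W : WeierstrassCurve K) (C : VariableChange K) (x₁ x₂ y₁ ℓ : K) :
    (C • W).toAffine.negAddY (fx C x₁) (fx C x₂) (fy C x₁ y₁) ((↑C.u⁻¹ : K) * (ℓ - C.s)) =
      fy C (W.toAffine.addX x₁ x₂ ℓ) (W.toAffine.negAddY x₁ x₂ y₁ ℓ) := by
  rw [Affine.negAddY, addX_fx, Affine.negAddY]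
  simp only [fx, fy]
  ring

lemma addY_fx (W : WeierstrassCurve K) (C : VariableChange K) (x₁ x₂ y₁ ℓ : K) :
    (C • W).toAffine.addY (fx C x₁) (fx C x₂) (fy C x₁ y₁) ((↑C.u⁻¹ : K) * (ℓ - C.s)) =
      fy C (W.toAffine.addX x₁ x₂ ℓ) (W.toAffine.addY x₁ x₂ y₁ ℓ) := by
  rw [Affine.addY, negAddY_fx, addX_fx, negY_fx, Affine.addY]

variable [DecidableEq K]

lemma slope_fx (W : WeierstrassCurve K) (C : VariableChange K) {x₁ x₂ y₁ y₂ : K}
    (h₁ : W.toAffine.Equation x₁ y₁) (h₂ : W.toAffine.Equation x₂ y₂)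
    (hxy : ¬(x₁ = x₂ ∧ y₁ = W.toAffine.negY x₂ y₂)) :
    (C • W).toAffine.slope (fx C x₁) (fx C x₂) (fy C x₁ y₁) (fy C x₂ y₂) =
      (↑C.u⁻¹ : K) * (W.toAffine.slope x₁ x₂ y₁ y₂ - C.s) := by
  have hv0 : (↑C.u⁻¹ : K) ≠ 0 := inv_ne_zero' C
  by_cases hx : x₁ = x₂
  · subst hx
    have hy : y₁ ≠ W.toAffine.negY x₁ y₂ := fun h => hxy ⟨rfl, h⟩
    have hy' : fy C x₁ y₁ ≠ (C • W).toAffine.negY (fx C x₁) (fy C x₁ y₂) := by
      rw [negY_fx]; exact fun h => hy ((fy_injective C x₁).1 h)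
    rw [Affine.slope_of_Y_ne rfl hy', Affine.slope_of_Y_ne rfl hy]
    have hyy : y₁ = y₂ := Affine.Y_eq_of_Y_ne h₁ h₂ rfl hy
    subst hyy
    have h1 : y₁ - W.toAffine.negY x₁ y₁ ≠ 0 := sub_ne_zero.2 hy
    have h2 : fy C x₁ y₁ - (C • W).toAffine.negY (fx C x₁) (fy C x₁ y₁) ≠ 0 := sub_ne_zero.2 hy'
    rw [div_eq_iff h2, negY_fx]
    have h3 : W.toAffine.slope x₁ x₁ y₁ y₁ * (y₁ - W.toAffine.negY x₁ y₁) =
        3 * x₁ ^ 2 + 2 * W.a₂ * x₁ + W.a₄ - W.a₁ * y₁ := by
      rw [Affine.slope_of_Y_ne rfl hy, div_mul_cancel₀ _ h1]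
    rw [← Affine.slope_of_Y_ne rfl hy]
    set ℓ := W.toAffine.slope x₁ x₁ y₁ y₁
    simp only [Affine.negY] at h3 ⊢
    simp only [variableChange_a₁, variableChange_a₂, variableChange_a₄, fx, fy]
    linear_combination (-(↑C.u⁻¹ : K) ^ 4) * h3
  · have hx' : fx C x₁ ≠ fx C x₂ := fun h => hx ((fx_injective C).1 h)
    rw [Affine.slope_of_X_ne hx', Affine.slope_of_X_ne hx]
    have h1 : x₁ - x₂ ≠ 0 := sub_ne_zero.2 hx
    have h2 : fx C x₁ - fx C x₂ ≠ 0 := sub_ne_zero.2 hx'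
    rw [div_eq_iff h2]
    simp only [fx, fy]
    field_simp
    ring

/-- the map on points induced by a change of variables -/
def ptMap (W : WeierstrassCurve K) (C : VariableChange K) :
    W.toAffine.Point → (C • W).toAffine.Point
  | .zero => .zero
  | .some x y h => .some (fx C x) (fy C x y) ((nonsingular_iff_fx W C x y).2 h)

@[simp] lemma ptMap_zero (W : WeierstrassCurve K) (C : VariableChange K) :
    ptMap W C 0 = 0 := rfl

lemma ptMap_some (W : WeierstrassCurve K) (C : VariableChange K) {x y : K}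
    (h : W.toAffine.Nonsingular x y) :
    ptMap W C (.some x y h) = .some (fx C x) (fy C x y) ((nonsingular_iff_fx W C x y).2 h) := rfl

lemma ptMap_add (W : WeierstrassCurve K) (C : VariableChange K) (P Q : W.toAffine.Point) :
    ptMap W C (P + Q) = ptMap W C P + ptMap W C Q := by
  rcases P with _ | ⟨x₁, y₁, h₁⟩
  · change ptMap W C (0 + Q) = 0 + ptMap W C Q
    rw [zero_add, zero_add]
  rcases Q with _ | ⟨x₂, y₂, h₂⟩
  · change ptMap W C (_ + 0) = _ + 0
    rw [add_zero, add_zero]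
  by_cases hxy : x₁ = x₂ ∧ y₁ = W.toAffine.negY x₂ y₂
  · obtain ⟨hx, hy⟩ := hxy
    rw [Point.add_of_Y_eq hx hy, ptMap_some, ptMap_some, Point.add_of_Y_eq]
    · rfl
    · rw [hx]
    · rw [negY_fx, hx, hy]
  · have hxy' : ¬(fx C x₁ = fx C x₂ ∧ fy C x₁ y₁ = (C • W).toAffine.negY (fx C x₂) (fy C x₂ y₂)) := by
      rintro ⟨h1, h2⟩
      have hx := (fx_injective C).1 h1
      subst hx
      rw [negY_fx] at h2
      exact hxy ⟨rfl, (fy_injective C x₁).1 h2⟩
    rw [Point.add_some hxy, ptMap_some, ptMap_some, ptMap_some, Point.add_some hxy']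
    have hs := slope_fx W C h₁.1 h₂.1 hxy
    congr 1
    · rw [hs, addX_fx]
    · rw [hs, addY_fx]

lemma ptMap_injective (W : WeierstrassCurve K) (C : VariableChange K) :
    Function.Injective (ptMap W C) := by
  rintro (_ | ⟨x₁, y₁, h₁⟩) (_ | ⟨x₂, y₂, h₂⟩) h
  · rfl
  · exact absurd h (by simp [ptMap])
  · exact absurd h (by simp [ptMap])
  · simp only [ptMap, Point.some.injEq] at h
    obtain ⟨h1, h2⟩ := h
    have hx := (fx_injective C).1 h1
    subst hx
    have hy := (fy_injective C x₁).1 h2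
    subst hy
    rfl

lemma ptMap_surjective (W : WeierstrassCurve K) (C : VariableChange K) :
    Function.Surjective (ptMap W C) := by
  rintro (_ | ⟨x', y', h'⟩)
  · exact ⟨.zero, rfl⟩
  · have hu := u_mul_inv C
    set x : K := (C.u : K) ^ 2 * x' + C.r with hx
    set y : K := (C.u : K) ^ 3 * y' + (C.u : K) ^ 2 * C.s * x' + C.t with hy
    have e1 : fx C x = x' := by
      simp only [fx, hx]
      linear_combination (x' * ((C.u : K) * (↑C.u⁻¹ : K) + 1)) * hu
    have e2 : fy C x y = y' := by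
      simp only [fy, hx, hy]
      linear_combination (y' * (((C.u : K) * (↑C.u⁻¹ : K)) ^ 2 + (C.u : K) * (↑C.u⁻¹ : K) + 1)) * hu
    have h : W.toAffine.Nonsingular x y := by
      rw [← nonsingular_iff_fx W C, e1, e2]; exact h'
    refine ⟨.some x y h, ?_⟩
    rw [ptMap_some]
    congr 1

/-- the group isomorphism on points induced by a change of variables -/
noncomputable def ptEquiv (W : WeierstrassCurve K) (C : VariableChange K) :
    W.toAffine.Point ≃+ (C • W).toAffine.Point :=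
  AddEquiv.ofBijective
    ({ toFun := ptMap W C
       map_zero' := rfl
       map_add' := ptMap_add W C } : W.toAffine.Point →+ (C • W).toAffine.Point)
    ⟨ptMap_injective W C, ptMap_surjective W C⟩

lemma ptEquiv_apply (W : WeierstrassCurve K) (C : VariableChange K) (P : W.toAffine.Point) :
    ptEquiv W C P = ptMap W C P := rfl

end Fermat.Agent.S44.VC
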